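import Mathlib
import Fermat.Agent.Lib.ModJ.QLaurent

/-!
# S20 bridge, piece C4: an estimate at the cusp

If `G * B = A`, where `A`, `B` have `q_N`-expansions `LA`, `LB` with `LB ≠ 0` and
`ord LB < ord LA` (or `LA = 0`), then `G` tends to `0` at `i∞`.
-/

set_option autoImplicit false

open UpperHalfPlane Function Complex Filter Topology

namespace Fermat.Agent.S20

open Fermat.Agent.Lib.ModJ

local notation "𝕢" => Periodic.qParam

/-- Factorisation of a convergent `q`-series: `f = q^k * g(q)`, `g` continuous at `0`,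
`g 0 ≠ 0`, `k` the order of the series. -/
theorem exists_factor_of_hasQ {h : ℝ} (hh : 0 < h) {f : ℍ → ℂ} {S : PowerSeries ℂ}
    (hf : HasQ h f S) (hS : S ≠ 0) :
    ∃ (k : ℕ) (g : ℂ → ℂ), ContinuousAt g 0 ∧ g 0 ≠ 0 ∧ S.coeff k ≠ 0 ∧
      (∀ n < k, S.coeff n = 0) ∧ ∀ τ : ℍ, f τ = 𝕢 h τ ^ k * g (𝕢 h τ) := by
  set p : FormalMultilinearSeries ℂ ℂ ℂ := .ofScalars ℂ fun m => S.coeff m with hp_def
  have hp : HasFPowerSeriesAt (fun q : ℂ => ∑' m : ℕ, S.coeff m * q ^ m) p 0 :=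
    (hf.hasFPowerSeriesOnBall hh).hasFPowerSeriesAt
  have hp0 : p ≠ 0 := by
    intro h0
    apply hS
    ext n
    have := congrFun ((FormalMultilinearSeries.ofScalars_series_eq_zero (E := ℂ)).mp h0) n
    simpa using this
  refine ⟨p.order, (swap dslope 0)^[p.order] (fun q : ℂ => ∑' m : ℕ, S.coeff m * q ^ m),
    (hp.has_fpower_series_iterate_dslope_fslope p.order).continuousAt,
    hp.iterate_dslope_fslope_ne_zero hp0, ?_, ?_, ?_⟩
  · have := FormalMultilinearSeries.apply_order_ne_zero hp0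
    rwa [hp_def, ne_eq, FormalMultilinearSeries.ofScalars_eq_zero] at this
  · intro n hn
    have := FormalMultilinearSeries.apply_eq_zero_of_lt_order hn
    rwa [hp_def, FormalMultilinearSeries.ofScalars_eq_zero] at this
  · intro τ
    have h1 := hp.eq_pow_order_mul_iterate_dslope (𝕢 h τ)
    rw [sub_zero, smul_eq_mul] at h1
    rw [← h1]
    exact hf.eq_tsum τ

/-- the order of the Laurent series of a nonzero power series -/
theorem order_ofPowerSeries_eq {S : PowerSeries ℂ} {k : ℕ} (hk : S.coeff k ≠ 0)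
    (hlt : ∀ n < k, S.coeff n = 0) :
    (HahnSeries.ofPowerSeries ℤ ℂ S).order = (k : ℤ) := by
  have hc : ∀ n : ℕ, (HahnSeries.ofPowerSeries ℤ ℂ S).coeff (n : ℤ) = S.coeff n := fun n =>
    HahnSeries.ofPowerSeries_apply_coeff S n
  have hne : HahnSeries.ofPowerSeries ℤ ℂ S ≠ 0 := by
    intro h0
    have := hc k
    rw [h0] at this
    exact hk (by simpa using this.symm)
  apply le_antisymm
  · exact HahnSeries.order_le_of_coeff_ne_zero (by rw [hc]; exact hk)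
  · by_contra hlt'
    rw [not_le] at hlt'
    have h1 : (HahnSeries.ofPowerSeries ℤ ℂ S).coeff (HahnSeries.ofPowerSeries ℤ ℂ S).order ≠ 0 :=
      fun h => hne (HahnSeries.coeff_order_eq_zero.mp h)
    apply h1
    by_cases hneg : (HahnSeries.ofPowerSeries ℤ ℂ S).order < 0
    · -- negative coefficients of a power series vanish
      have hsupp : ∀ m : ℤ, m < 0 → (HahnSeries.ofPowerSeries ℤ ℂ S).coeff m = 0 := by
        intro m hm
        rw [HahnSeries.ofPowerSeries_apply]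
        apply HahnSeries.embDomain_of_notMem_range
        rintro ⟨n, hn⟩
        have hn' : ((n : ℕ) : ℤ) = m := hn
        omega
      exact hsupp _ hneg
    · rw [not_lt] at hneg
      obtain ⟨n, hn⟩ := Int.eq_ofNat_of_zero_le hneg
      rw [hn, hc]
      apply hlt
      rw [hn] at hlt'
      exact_mod_cast hlt'

/-- Factorisation of a function with a `q_h`-Laurent expansion. -/
theorem exists_factor_of_hasQL {h : ℝ} (hh : 0 < h) {f : ℍ → ℂ} {L : LaurentSeries ℂ}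
    (hf : HasQL h f L) (hL : L ≠ 0) :
    ∃ g : ℂ → ℂ, ContinuousAt g 0 ∧ g 0 ≠ 0 ∧
      ∀ τ : ℍ, f τ = 𝕢 h τ ^ L.order * g (𝕢 h τ) := by
  obtain ⟨M, S, h1, h2⟩ := hf
  have hS : S ≠ 0 := by
    rintro rfl
    rw [map_zero] at h2
    exact hL ((mul_eq_zero.mp h2).resolve_left (single_ne_zero' _))
  obtain ⟨k, g, hg, hg0, hk, hlt, hfac⟩ := exists_factor_of_hasQ hh h1 hS
  refine ⟨g, hg, hg0, fun τ => ?_⟩
  have hord : (M : ℤ) + L.order = k := by
    have e1 := order_ofPowerSeries_eq hk hlt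
    rw [← h2, HahnSeries.order_mul (single_ne_zero' _) hL,
      HahnSeries.order_single (one_ne_zero)] at e1
    exact e1
  have hq : 𝕢 h τ ≠ 0 := Periodic.qParam_ne_zero _
  have h3 := hfac τ
  have h4 : 𝕢 h τ ^ L.order = 𝕢 h τ ^ (k : ℤ) * (𝕢 h τ ^ (M : ℤ))⁻¹ := by
    rw [← zpow_neg, ← zpow_add₀ hq]
    congr 1
    omega
  rw [h4, zpow_natCast, zpow_natCast, mul_assoc, mul_comm _ (g _), ← mul_assoc, ← h3]
  field_simp

/-- **C4.** quotient of two `q_N`-expansions with positive order tends to `0` at `i∞`. -/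
theorem isZeroAtImInfty_of_mul_eq {N : ℕ} [NeZero N] {G A B : ℍ → ℂ} {LA LB : LaurentSeries ℂ}
    (hA : HasQL N A LA) (hB : HasQL N B LB) (hLB : LB ≠ 0)
    (hmul : ∀ z, G z * B z = A z) (hord : LA = 0 ∨ LB.order < LA.order) :
    UpperHalfPlane.IsZeroAtImInfty G := by
  have hN : (0 : ℝ) < N := by exact_mod_cast Nat.pos_of_ne_zero (NeZero.ne N)
  obtain ⟨gB, hgB, hgB0, hfB⟩ := exists_factor_of_hasQL hN hB hLB
  have hq0 : Tendsto (fun τ : ℍ => 𝕢 (N : ℝ) τ) atImInfty (𝓝 0) :=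
    (qParam_tendsto_atImInfty hN)
  have hqne : ∀ τ : ℍ, 𝕢 (N : ℝ) τ ≠ 0 := fun τ => Periodic.qParam_ne_zero _
  have hgBt : Tendsto (fun τ : ℍ => gB (𝕢 (N : ℝ) τ)) atImInfty (𝓝 (gB 0)) :=
    hgB.tendsto.comp hq0
  have hgBne : ∀ᶠ τ : ℍ in atImInfty, gB (𝕢 (N : ℝ) τ) ≠ 0 := hgBt.eventually_ne hgB0
  show Tendsto G atImInfty (𝓝 0)
  rcases eq_or_ne LA 0 with hLA | hLA
  · -- `A = 0`
    have hA0 : ∀ τ, A τ = 0 := (hA.eq_zero_iff hN).mp hLA
    have hG : ∀ᶠ τ : ℍ in atImInfty, G τ = 0 := by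
      filter_upwards [hgBne] with τ hτ
      have h1 := hmul τ
      rw [hA0 τ, hfB τ] at h1
      exact (mul_eq_zero.mp h1).resolve_right
        (mul_ne_zero (zpow_ne_zero _ (hqne τ)) hτ)
    exact (tendsto_congr' hG).mpr tendsto_const_nhds
  · have hlt : LB.order < LA.order := hord.resolve_left hLA
    obtain ⟨gA, hgA, -, hfA⟩ := exists_factor_of_hasQL hN hA hLA
    have hgAt : Tendsto (fun τ : ℍ => gA (𝕢 (N : ℝ) τ)) atImInfty (𝓝 (gA 0)) :=
      hgA.tendsto.comp hq0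
    obtain ⟨n, hn⟩ : ∃ n : ℕ, LA.order - LB.order = (n : ℤ) + 1 := by
      obtain ⟨n, hn⟩ := Int.eq_ofNat_of_zero_le (show 0 ≤ LA.order - LB.order - 1 by omega)
      exact ⟨n, by omega⟩
    have hG : ∀ᶠ τ : ℍ in atImInfty,
        G τ = 𝕢 (N : ℝ) τ ^ (n + 1) * gA (𝕢 (N : ℝ) τ) / gB (𝕢 (N : ℝ) τ) := by
      filter_upwards [hgBne] with τ hτ
      have h1 := hmul τ
      rw [hfA τ, hfB τ] at h1
      have hzB : 𝕢 (N : ℝ) τ ^ LB.order ≠ 0 := zpow_ne_zero _ (hqne τ)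
      have h2 : 𝕢 (N : ℝ) τ ^ LA.order = 𝕢 (N : ℝ) τ ^ (n + 1) * 𝕢 (N : ℝ) τ ^ LB.order := by
        rw [← zpow_natCast, ← zpow_add₀ (hqne τ)]
        congr 1
        push_cast
        omega
      rw [h2] at h1
      rw [eq_div_iff hτ]
      apply mul_right_cancel₀ hzB
      rw [mul_assoc, mul_comm (gB _), h1]
      ring
    refine (tendsto_congr' hG).mpr ?_
    have h3 : Tendsto (fun τ : ℍ => 𝕢 (N : ℝ) τ ^ (n + 1)) atImInfty (𝓝 0) := by
      have := hq0.pow (n + 1)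
      rwa [zero_pow (Nat.succ_ne_zero n)] at this
    have h4 := (h3.mul hgAt).div hgBt hgB0
    rwa [zero_mul, zero_div] at h4

end Fermat.Agent.S20
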