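import Mathlib
import Fermat.Agent.Lib.ModCK.OverC
import Fermat.Agent.Lib.FunctionField.RiemannHurwitz

/-!
# S20 bridge: the divisor of `dj` on `X₀(N)` over `ℂ`

`exists_divisor_dj`: the function `v ↦ v.ordDifferential (dj)` has finite support (it is supported
on the places over `0`, `1728` and `∞`), i.e. it is a divisor `W`.
-/

set_option autoImplicit false
set_option linter.unusedSectionVars false

open AlgebraicCurve IntermediateField ModularCurve UpperHalfPlane KaehlerDifferential
open scoped MatrixGroups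

namespace Fermat.Agent.S20

open Fermat.Agent.Lib.FF Fermat.Agent.Lib.ModJ Fermat.Agent.Lib.ModC Fermat.Agent.Lib.ModCK
  CongruenceSubgroup

variable (N : ℕ) [NeZero N]

/-- the divisor of the differential `dj` -/
theorem exists_divisor_dj :
    ∃ W : Divisor ℂ (FC N), ∀ v : Place ℂ (FC N), W v = v.ordDifferential (D ℂ (FC N) (jFC N)) := by
  classical
  have hff := isFF1_jFC N
  have hpf := placeFacts_FC N
  have htr := hff.transcendental
  set S : Finset (Place ℂ (FC N)) := hpf.fib htr 0 ∪ hpf.fib htr 1728 ∪ hpf.pol htr with hS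
  refine ⟨Finsupp.onFinset S (fun v => v.ordDifferential (D ℂ (FC N) (jFC N))) ?_, fun v => rfl⟩
  intro v hv
  by_contra hvS
  apply hv
  rw [hS, Finset.mem_union, Finset.mem_union, not_or, not_or] at hvS
  obtain ⟨⟨h0, h1728⟩, hpol⟩ := hvS
  rw [hpf.mem_pol htr, not_lt] at hpol
  obtain ⟨a, ha⟩ := exists_ord_sub_pos htr v (hpf.res v) hpol
  have ha0 : a ≠ 0 := by
    rintro rfl
    exact h0 ((hpf.mem_fib htr).mpr ha)
  have ha1 : a ≠ 1728 := by
    rintro rfl
    exact h1728 ((hpf.mem_fib htr).mpr ha)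
  have hfull : nFibre (jFC N) a = Module.finrank ℂ⟮jFC N⟯ (FC N) := by
    rw [finrank_jFC]
    exact nFibre_jK_generic (RingHom.id ℂ) N a ha0 ha1
  have hone := hpf.ord_eq_one_of_full htr a hfull v ha
  rw [ordDifferential_dx_of_fibre hff v (hpf.res v) a ha, hone]
  rfl

end Fermat.Agent.S20
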