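import Mathlib
import Fermat.Agent.Lib.ModCK.OverC
import Fermat.Agent.Lib.FunctionField.RiemannHurwitz

/-!
# S20 bridge, easy direction: orders of `u ∈ L(div dj)` at the points of `ℍ` and at the cusps

`F = FC N` the function field of `X₀(N)` over `ℂ`, `W = div (dj)`.  For `u ∈ L(W)`, `u ≠ 0`:

* `ordAt_embC_ge`: at every `z₀ ∈ ℍ`, `1 ≤ ordAt z₀ (embC u) + ord_{z₀} (j - j(z₀))`,
  so that `embC u · j'` is regular at `z₀`;
* `order_tauInf_ge`: at every cusp, `N + 1 ≤ order (tauInf γ u)`.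
-/

set_option autoImplicit false
set_option linter.unusedSectionVars false

open AlgebraicCurve IntermediateField ModularCurve UpperHalfPlane KaehlerDifferential
open scoped MatrixGroups

namespace Fermat.Agent.S20

open Fermat.Agent.Lib.FF Fermat.Agent.Lib.ModJ Fermat.Agent.Lib.ModC Fermat.Agent.Lib.ModCK
  CongruenceSubgroup

variable (N : ℕ) [NeZero N]

/-- the order of `j - j(z₀)` at `z₀` -/
noncomputable def jOrd (z₀ : ℍ) : ℤ := holOrd z₀ (jHol 1 - constHol (jFun z₀))

theorem jOrd_pos (z₀ : ℍ) : 0 < jOrd z₀ := by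
  have h := ordAt_embAn_jK_sub_pos (RingHom.id ℂ) 1 z₀ (jFun z₀) rfl
  rw [embAn_jK_sub, ordAt_algebraMap z₀ (Lib.ModCK.jHol_sub_ne_zero _)] at h
  exact h

variable {N}

/-- **Points.** -/
theorem ordAt_embC_ge {W : Divisor ℂ (FC N)}
    (hW : ∀ v : Place ℂ (FC N), W v = v.ordDifferential (D ℂ (FC N) (jFC N)))
    {u : FC N} (hu0 : u ≠ 0) (hu : u ∈ riemannRochSpace W) (z₀ : ℍ) :
    1 ≤ ordAt z₀ (embC N u) + jOrd z₀ := by
  obtain ⟨v, d, hd, hv⟩ := exists_place_at_FC N z₀
  have hff := isFF1_jFC N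
  have hres := algebraMap_residueField_surjective hff v
  -- the element `j - j(z₀)`
  set y : FC N := jFC N - algebraMap ℂ (FC N) (jFun z₀) with hy
  have hy0 : y ≠ 0 := by
    intro h
    have := ordAt_embAn_jK_sub_pos (RingHom.id ℂ) N z₀ (jFun z₀) rfl
    have e : embAn (RingHom.id ℂ) N (jK ℂ N - algebraMap ℂ _ (jFun z₀)) = embC N y := rfl
    rw [e, h, map_zero, ordAt_zero] at this
    exact lt_irrefl _ this
  have h1 : ordAt z₀ (embC N y) = jOrd z₀ := by
    have e : embC N y = embAn (RingHom.id ℂ) N (jK ℂ N - algebraMap ℂ _ (jFun z₀)) := rfl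
    rw [e, embAn_jK_sub, ordAt_algebraMap z₀ (Lib.ModCK.jHol_sub_ne_zero _)]
    rfl
  have h2 := hv y hy0
  rw [h1] at h2
  have hpos := jOrd_pos z₀
  have hdpos : (0 : ℤ) < d := by exact_mod_cast hd
  have he : 0 < v.ord y := by
    by_contra hcon
    rw [not_lt] at hcon
    nlinarith
  have hWv : W v = v.ord y - 1 := by
    rw [hW v]
    exact ordDifferential_dx_of_fibre hff v hres (jFun z₀) he
  have hu' := (mem_riemannRochSpace_iff.mp hu) v
  rcases hu' with hu' | hu'
  · exact absurd hu' hu0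
  · rw [hWv] at hu'
    rw [hv u hu0, h2]
    nlinarith

/-- **Cusps.** -/
theorem order_tauInf_ge {W : Divisor ℂ (FC N)}
    (hW : ∀ v : Place ℂ (FC N), W v = v.ordDifferential (D ℂ (FC N) (jFC N)))
    {u : FC N} (hu0 : u ≠ 0) (hu : u ∈ riemannRochSpace W) (γ : SL(2, ℤ)) :
    (N : ℤ) + 1 ≤ (tauInf (RingHom.id ℂ) N γ u).order := by
  obtain ⟨v, d, hd, hv⟩ := exists_place_cusp_FC N γ
  have hff := isFF1_jFC N
  have hres := algebraMap_residueField_surjective hff v
  have hj0 : jFC N ≠ 0 := by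
    intro h
    exact hff.transcendental (h ▸ isAlgebraic_zero)
  have hj : (tauInf (RingHom.id ℂ) N γ (jFC N)).order = -(N : ℤ) := by
    have : tauInf (RingHom.id ℂ) N γ (jFC N) = ModularCurve.qExpand ℂ N jqC :=
      tauInf_jK (RingHom.id ℂ) N γ
    rw [this, order_qExpand_jqC]
  have h2 := hv (jFC N) hj0
  rw [hj] at h2
  have hdpos : (0 : ℤ) < d := by exact_mod_cast hd
  have hN : (0 : ℤ) < N := by exact_mod_cast Nat.pos_of_ne_zero (NeZero.ne N)
  have he : v.ord (jFC N) < 0 := by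
    by_contra hcon
    rw [not_lt] at hcon
    nlinarith
  have hWv : W v = v.ord (jFC N) - 1 := by
    rw [hW v]
    exact ordDifferential_dx_of_pole hff v hres he
  have hu' := (mem_riemannRochSpace_iff.mp hu) v
  rcases hu' with hu' | hu'
  · exact absurd hu' hu0
  · rw [hWv] at hu'
    rw [hv u hu0]
    nlinarith

end Fermat.Agent.S20
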