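import Mathlib
import Fermat.Agent.S20.Regular
import Fermat.Agent.S20.CuspEstimate
import Fermat.Agent.Lib.ModC.HolDer

/-!
# S20 bridge, easy direction: vanishing at the cusps

If `u ∈ L(div dj)` and `h` is a holomorphic function on `ℍ` with `[h] = embC u · [j']`, then
`h ∣[2] γ` is zero at `i∞` for every `γ ∈ SL(2,ℤ)`.
-/

set_option autoImplicit false
set_option linter.unusedSectionVars false

open AlgebraicCurve IntermediateField ModularCurve UpperHalfPlane KaehlerDifferential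
open scoped MatrixGroups ModularForm

namespace Fermat.Agent.S20

open Fermat.Agent.Lib.FF Fermat.Agent.Lib.ModJ Fermat.Agent.Lib.ModC Fermat.Agent.Lib.ModCK
  CongruenceSubgroup

variable {N : ℕ} [NeZero N]

/-- the pointwise identity `h · B = A · j'` behind `[h] = embC u · [j']`, `u = A / B`. -/
theorem hol_mul_eq {u : FC N} {h : Hol}
    (hh : algebraMap Hol Mer h = embC N u * algebraMap Hol Mer jDer)
    {P Q : MvPolynomial (DivIdx N) ℂ} (hPQ : u * aevalF N Q = aevalF N P) (w : ℍ) :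
    (h : ℍ → ℂ) w * (evalHol (RingHom.id ℂ) N Q : ℍ → ℂ) w
      = (evalHol (RingHom.id ℂ) N P : ℍ → ℂ) w * (jDer : ℍ → ℂ) w := by
  have h1 : algebraMap Hol Mer (h * evalHol (RingHom.id ℂ) N Q)
      = algebraMap Hol Mer (evalHol (RingHom.id ℂ) N P * jDer) := by
    rw [map_mul, map_mul, hh, ← Lib.ModCK.embAn_aevalF (RingHom.id ℂ) N Q, ← Lib.ModCK.embAn_aevalF (RingHom.id ℂ) N P,
      ← hPQ]
    show embC N u * _ * embC N (aevalF N Q) = embC N (u * aevalF N Q) * _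
    rw [map_mul]
    ring
  have h2 := IsFractionRing.injective Hol Mer h1
  exact congrArg (fun f : Hol => (f : ℍ → ℂ) w) h2

theorem jDer_smul (γ : SL(2, ℤ)) (z : ℍ) :
    (jDer : ℍ → ℂ) (γ • z) = (jDer : ℍ → ℂ) z * denom γ z ^ 2 := by
  have h := congrArg (fun f : Hol => (f : ℍ → ℂ) z) (holAct_jDer γ⁻¹)
  simp only [holAct_apply, inv_inv] at h
  rw [h]
  show (jDer : ℍ → ℂ) z * ((denomHol γ : ℍ → ℂ) z) ^ 2 = _
  rw [denomHol_eq_denom]

theorem evalHol_smul (γ : SL(2, ℤ)) (P : MvPolynomial (DivIdx N) ℂ) (z : ℍ) :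
    (evalHol (RingHom.id ℂ) N P : ℍ → ℂ) (γ • z) = evalAn (RingHom.id ℂ) N γ⁻¹ P z := by
  rw [Lib.ModCK.evalHol_apply, evalAn, inv_inv]

/-- **Vanishing at the cusps.** -/
theorem isZeroAtImInfty_slash {W : Divisor ℂ (FC N)}
    (hW : ∀ v : Place ℂ (FC N), W v = v.ordDifferential (D ℂ (FC N) (jFC N)))
    {u : FC N} (hu : u ∈ riemannRochSpace W) {h : Hol}
    (hh : algebraMap Hol Mer h = embC N u * algebraMap Hol Mer jDer)
    {LD : LaurentSeries ℂ} (hLD : HasQL N (fun z => (jDer : ℍ → ℂ) z) LD)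
    (hLDord : LD.order = -(N : ℤ)) (γ : SL(2, ℤ)) :
    IsZeroAtImInfty ((h : ℍ → ℂ) ∣[(2 : ℤ)] γ) := by
  obtain ⟨P, Q, hQ, hPQ⟩ := exists_aevalF_div N u
  have hN : (0 : ℤ) < N := by exact_mod_cast Nat.pos_of_ne_zero (NeZero.ne N)
  have hLD0 : LD ≠ 0 := by
    rintro rfl
    rw [HahnSeries.order_zero] at hLDord
    omega
  have hTQ : tauInf (RingHom.id ℂ) N γ⁻¹ (aevalF N Q) ≠ 0 :=
    (map_ne_zero (tauInf (RingHom.id ℂ) N γ⁻¹)).mpr hQ
  refine isZeroAtImInfty_of_mul_eq (N := N)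
    (A := fun z => evalAn (RingHom.id ℂ) N γ⁻¹ P z * (jDer : ℍ → ℂ) z)
    (B := fun z => evalAn (RingHom.id ℂ) N γ⁻¹ Q z)
    (LA := tauInf (RingHom.id ℂ) N γ⁻¹ (aevalF N P) * LD)
    (LB := tauInf (RingHom.id ℂ) N γ⁻¹ (aevalF N Q))
    ((hasQL_tauInf (RingHom.id ℂ) N γ⁻¹ P).mul hLD)
    (hasQL_tauInf (RingHom.id ℂ) N γ⁻¹ Q) hTQ ?_ ?_
  · intro z
    have h1 := hol_mul_eq hh hPQ (γ • z)
    rw [evalHol_smul, evalHol_smul, jDer_smul] at h1
    rw [ModularForm.SL_slash_apply]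
    have hd : denom γ z ≠ 0 := denom_ne_zero _ z
    have hd2 : denom γ z ^ (-(2 : ℤ)) = (denom γ z ^ 2)⁻¹ := by
      rw [zpow_neg]
      norm_cast
    rw [hd2]
    field_simp
    linear_combination h1
  · by_cases hu0 : u = 0
    · left
      rw [← hPQ, hu0, zero_mul, map_zero, zero_mul]
    · right
      have hP : aevalF N P ≠ 0 := by
        rw [← hPQ]
        exact mul_ne_zero hu0 hQ
      have hTP : tauInf (RingHom.id ℂ) N γ⁻¹ (aevalF N P) ≠ 0 :=
        (map_ne_zero (tauInf (RingHom.id ℂ) N γ⁻¹)).mpr hP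
      have hTu : tauInf (RingHom.id ℂ) N γ⁻¹ u ≠ 0 :=
        (map_ne_zero (tauInf (RingHom.id ℂ) N γ⁻¹)).mpr hu0
      have h1 := order_tauInf_ge hW hu0 hu γ⁻¹
      have h2 : (tauInf (RingHom.id ℂ) N γ⁻¹ (aevalF N P)).order
          = (tauInf (RingHom.id ℂ) N γ⁻¹ u).order
            + (tauInf (RingHom.id ℂ) N γ⁻¹ (aevalF N Q)).order := by
        rw [← hPQ, map_mul, HahnSeries.order_mul hTu hTQ]
      rw [HahnSeries.order_mul hTP hLD0, h2, hLDord]
      omega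

end Fermat.Agent.S20
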