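import Mathlib
import Fermat.Prelude.Thm_ModularForm_sturm_bound_Gamma0
import Fermat.Prelude.Thm_CongruenceSubgroup_one_mem_strictPeriods_Gamma0

/-!
# S20: the spaces of modular forms and cusp forms on `Γ₀(N)` are finite dimensional

(by the Sturm bound of the prelude).
-/

set_option autoImplicit false
set_option linter.unusedSectionVars false

open UpperHalfPlane CongruenceSubgroup ModularFormClass
open scoped MatrixGroups ModularForm

namespace Fermat.Agent.S20

/-- the first coefficients of the `q`-expansion, as a linear map -/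
noncomputable def firstCoeffs (N : ℕ) [NeZero N] (k : ℤ) (B : ℕ) :
    ModularForm (CongruenceSubgroup.Gamma0 N) k →ₗ[ℂ] (Fin (B + 1) → ℂ) where
  toFun f := fun n => (qExpansion 1 f).coeff (n : ℕ)
  map_add' f g := by
    funext n
    have h := ModularForm.qExpansion_add (h := 1) one_pos
      (CongruenceSubgroup.one_mem_strictPeriods_Gamma0 N) f g
    have e : (⇑(f + g) : ℍ → ℂ) = ⇑f + ⇑g := rfl
    simp only [Pi.add_apply]
    rw [e, h, map_add]
  map_smul' c f := by
    funext n
    have h := ModularForm.qExpansion_smul (h := 1) one_pos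
      (CongruenceSubgroup.one_mem_strictPeriods_Gamma0 N) c f
    have e : (⇑(c • f) : ℍ → ℂ) = c • ⇑f := rfl
    simp only [Pi.smul_apply, RingHom.id_apply]
    rw [e, h, PowerSeries.coeff_smul]

theorem firstCoeffs_injective (N : ℕ) [NeZero N] (k : ℤ) :
    Function.Injective
      (firstCoeffs N k ((k * (CongruenceSubgroup.Gamma0 N).index).toNat / 12)) := by
  rw [← LinearMap.ker_eq_bot, LinearMap.ker_eq_bot']
  intro f hf
  refine ModularForm.sturm_bound_Gamma0 N f (fun n hn => ?_)
  have := congrFun hf ⟨n, Nat.lt_succ_of_le hn⟩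
  exact this

instance finiteDimensional_modularForm (N : ℕ) [NeZero N] (k : ℤ) :
    FiniteDimensional ℂ (ModularForm (CongruenceSubgroup.Gamma0 N) k) :=
  FiniteDimensional.of_injective _ (firstCoeffs_injective N k)

instance finiteDimensional_cuspForm (N : ℕ) [NeZero N] (k : ℤ) :
    FiniteDimensional ℂ (CuspForm (CongruenceSubgroup.Gamma0 N) k) :=
  FiniteDimensional.of_injective (CuspForm.toModularFormₗ)
    CuspForm.toModularFormₗ_injective

end Fermat.Agent.S20
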