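import Mathlib
import Fermat.Agent.S20.Regular
import Fermat.Agent.Lib.ModC.HolDer

/-!
# S20 bridge, easy direction, finite part

For `u ∈ L(div dj)` in the function field `FC N` of `X₀(N)` over `ℂ`, the meromorphic function
`u_an · j'` is holomorphic on `ℍ` and has weight `2` for `Γ₀(N)`.
-/

set_option autoImplicit false
set_option linter.unusedSectionVars false

open AlgebraicCurve IntermediateField ModularCurve UpperHalfPlane KaehlerDifferential
open scoped MatrixGroups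

namespace Fermat.Agent.S20

open Fermat.Agent.Lib.FF Fermat.Agent.Lib.ModJ Fermat.Agent.Lib.ModC CongruenceSubgroup
open Fermat.Agent.Lib.ModCK (FC jFC embC isFF1_jFC placeFacts_FC embC_algebraMap embC_jFC
  exists_place_at_FC exists_place_cusp_FC)

variable (N : ℕ) [NeZero N]

/-- invariance of the analytic embedding under `Γ₀(N)` -/
theorem merAct_embC (g : SL(2, ℤ)) (hg : g ∈ Gamma0 N) (u : FC N) :
    merAct g (embC N u) = embC N u := by
  have h := Fermat.Agent.Lib.ModCK.tau_mul_of_mem (RingHom.id ℂ) N 1 g hg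
  have h1 := congrArg (fun τ : FC N →+* Mer => τ u) h
  simp only [one_mul] at h1
  rw [Fermat.Agent.Lib.ModCK.tau_apply, Fermat.Agent.Lib.ModCK.tau_one] at h1
  exact h1

variable {N}

/-- the order of `u_an · j'` at a point of `ℍ` is nonnegative for `u ∈ L(div dj)` -/
theorem ordAt_embC_mul_jDer_nonneg {W : Divisor ℂ (FC N)}
    (hW : ∀ v : Place ℂ (FC N), W v = v.ordDifferential (D ℂ (FC N) (jFC N)))
    {u : FC N} (hu : u ∈ riemannRochSpace W) (z₀ : ℍ) :
    0 ≤ ordAt z₀ (embC N u * algebraMap Hol Mer jDer) := by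
  by_cases hu0 : u = 0
  · rw [hu0, map_zero, zero_mul, ordAt_zero]
  have h1 := ordAt_embC_ge hW hu0 hu z₀
  have hder := holOrd_jDer_add_one z₀
  have hEu : embC N u ≠ 0 := (map_ne_zero (embC N)).mpr hu0
  have hJ : algebraMap Hol Mer jDer ≠ 0 := fun h =>
    jDer_ne_zero (IsFractionRing.injective Hol Mer (by rw [h, map_zero]))
  rw [(isOrdFun_ordAt z₀).mul _ _ hEu hJ, ordAt_algebraMap z₀ jDer_ne_zero]
  rw [jOrd] at h1
  linarith

/-- **Finite part of the easy direction.** For `u ∈ L(div dj)` the function `u_an · j'` is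
holomorphic on `ℍ` and satisfies the weight-2 law for `Γ₀(N)`. -/
theorem exists_hol_of_mem_rrSpace {W : Divisor ℂ (FC N)}
    (hW : ∀ v : Place ℂ (FC N), W v = v.ordDifferential (D ℂ (FC N) (jFC N)))
    {u : FC N} (hu : u ∈ riemannRochSpace W) :
    ∃ h : Hol, algebraMap Hol Mer h = embC N u * algebraMap Hol Mer jDer ∧
      (∀ g : SL(2, ℤ), g ∈ Gamma0 N → holAct g h = h * denomHol g⁻¹ ^ 2) ∧
      ∀ g : SL(2, ℤ), g ∈ Gamma0 N → ∀ z : ℍ,
        (h : ℍ → ℂ) (g • z) = (denom g z) ^ 2 * (h : ℍ → ℂ) z := by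
  obtain ⟨h, hh⟩ := exists_hol_of_ordAt_nonneg _ (ordAt_embC_mul_jDer_nonneg hW hu)
  have hinv : ∀ g : SL(2, ℤ), g ∈ Gamma0 N → holAct g h = h * denomHol g⁻¹ ^ 2 := by
    intro g hg
    apply IsFractionRing.injective Hol Mer
    rw [← merAct_algebraMap, hh, map_mul, merAct_embC N g hg, merAct_algebraMap, holAct_jDer,
      map_mul, map_mul, hh, mul_assoc]
  refine ⟨h, hh, hinv, ?_⟩
  intro g hg z
  have h1 := hinv g⁻¹ (inv_mem hg)
  have h2 := congrArg (fun f : Hol => (f : ℍ → ℂ) z) h1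
  simp only [holAct_apply, inv_inv] at h2
  rw [h2]
  show (h : ℍ → ℂ) z * ((denomHol g : ℍ → ℂ) z) ^ 2 = _
  rw [denomHol_eq_denom]
  ring

/-- The slash of `h` by any `γ ∈ SL(2,ℤ)`, in `Mer`: `[h ∣ γ] = τ_{γ⁻¹}(u) · [j']`. -/
theorem holAct_mul_denom_eq {u : FC N} {h : Hol}
    (hh : algebraMap Hol Mer h = embC N u * algebraMap Hol Mer jDer) (γ : SL(2, ℤ)) :
    algebraMap Hol Mer (holAct γ h) =
      Fermat.Agent.Lib.ModCK.tau (RingHom.id ℂ) N γ u *
        algebraMap Hol Mer (jDer * denomHol γ⁻¹ ^ 2) := by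
  rw [← merAct_algebraMap, hh, map_mul, merAct_algebraMap, holAct_jDer,
    Fermat.Agent.Lib.ModCK.tau_apply]
  rfl

end Fermat.Agent.S20
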