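import Mathlib
import Fermat.Agent.S20.Cusp
import Fermat.Agent.S20.Finite
import Fermat.Agent.S20.Canonical
import Fermat.Agent.S20.FinDim
import Fermat.Agent.Lib.FunctionField.RRCanonical

/-!
# S20 bridge, easy direction: `L(div dj) ↪ S₂(Γ₀(N))`

`u ↦ f` with `[f] = embC u · [j']`.  Consequence: `genusFormula N ≤ dim S₂(Γ₀(N))`.

The two analytic inputs `C2` (constructor of a cusp form) and `C5` (the `q_N`-expansion of `j'`)
are hypotheses of the statements of this file.
-/

set_option autoImplicit false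
set_option linter.unusedSectionVars false

open AlgebraicCurve IntermediateField ModularCurve UpperHalfPlane KaehlerDifferential
open scoped MatrixGroups ModularForm Manifold

namespace Fermat.Agent.S20

open Fermat.Agent.Lib.FF Fermat.Agent.Lib.ModJ Fermat.Agent.Lib.ModC Fermat.Agent.Lib.ModCK
  CongruenceSubgroup

variable {N : ℕ} [NeZero N]

/-- the statement of the constructor `C2` -/
def CuspCtor (N : ℕ) : Prop :=
  ∀ h : ℍ → ℂ, MDiff h →
    (∀ g : SL(2, ℤ), g ∈ Gamma0 N → ∀ z : ℍ, h (g • z) = (denom g z) ^ 2 * h z) →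
    (∀ γ : SL(2, ℤ), IsZeroAtImInfty (h ∣[(2 : ℤ)] γ)) →
    ∃ f : CuspForm (CongruenceSubgroup.Gamma0 N) 2, ⇑f = h

/-- the statement of `C5` -/
def JDerExp (N : ℕ) : Prop :=
  ∃ L : LaurentSeries ℂ, L.order = -(N : ℤ) ∧ HasQL N (fun z => (jDer : ℍ → ℂ) z) L

/-- the holomorphic function underlying a cusp form -/
noncomputable def holOfCusp (f : CuspForm (CongruenceSubgroup.Gamma0 N) 2) : Hol :=
  ⟨⇑f, CuspFormClass.holo f⟩

theorem holOfCusp_apply (f : CuspForm (CongruenceSubgroup.Gamma0 N) 2) (z : ℍ) :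
    (holOfCusp f : ℍ → ℂ) z = f z := rfl

theorem holOfCusp_injective :
    Function.Injective (holOfCusp : CuspForm (CongruenceSubgroup.Gamma0 N) 2 → Hol) := by
  intro f g h
  apply DFunLike.ext
  intro z
  exact congrArg (fun F : Hol => (F : ℍ → ℂ) z) h

theorem holOfCusp_add (f g : CuspForm (CongruenceSubgroup.Gamma0 N) 2) :
    holOfCusp (f + g) = holOfCusp f + holOfCusp g := rfl

theorem holOfCusp_smul (c : ℂ) (f : CuspForm (CongruenceSubgroup.Gamma0 N) 2) :
    holOfCusp (c • f) = constHol c * holOfCusp f := by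
  apply Subtype.ext
  funext z
  show (c • f) z = c * f z
  rfl

/-- `f = embC u · j'` -/
def Rel (u : FC N) (f : CuspForm (CongruenceSubgroup.Gamma0 N) 2) : Prop :=
  algebraMap Hol Mer (holOfCusp f) = embC N u * algebraMap Hol Mer jDer

theorem algebraMap_jDer_ne_zero : algebraMap Hol Mer jDer ≠ 0 := fun h =>
  jDer_ne_zero (IsFractionRing.injective Hol Mer (by rw [h, map_zero]))

theorem Rel.unique {u : FC N} {f g : CuspForm (CongruenceSubgroup.Gamma0 N) 2}
    (hf : Rel u f) (hg : Rel u g) : f = g := by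
  apply holOfCusp_injective
  apply IsFractionRing.injective Hol Mer
  rw [hf, hg]

theorem Rel.add {u u' : FC N} {f f' : CuspForm (CongruenceSubgroup.Gamma0 N) 2}
    (hf : Rel u f) (hf' : Rel u' f') : Rel (u + u') (f + f') := by
  rw [Rel, holOfCusp_add, RingHom.map_add, RingHom.map_add, hf, hf', add_mul]

theorem Rel.smul (c : ℂ) {u : FC N} {f : CuspForm (CongruenceSubgroup.Gamma0 N) 2}
    (hf : Rel u f) : Rel (c • u) (c • f) := by
  rw [Rel, holOfCusp_smul, RingHom.map_mul, hf, Algebra.smul_def, RingHom.map_mul,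
    embC_algebraMap, mul_assoc]

theorem Rel.eq_zero {u : FC N} (h : Rel u 0) : u = 0 := by
  rw [Rel] at h
  have h0 : holOfCusp (0 : CuspForm (CongruenceSubgroup.Gamma0 N) 2) = 0 := rfl
  rw [h0, RingHom.map_zero] at h
  rcases mul_eq_zero.mp h.symm with h1 | h1
  · exact (map_eq_zero (embC N)).mp h1
  · exact absurd h1 algebraMap_jDer_ne_zero

section Main

variable (hC2 : CuspCtor N) (hC5 : JDerExp N) {W : Divisor ℂ (FC N)}
  (hW : ∀ v : Place ℂ (FC N), W v = v.ordDifferential (D ℂ (FC N) (jFC N)))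

include hC2 hC5 hW

/-- every `u ∈ L(div dj)` gives a cusp form -/
theorem exists_rel {u : FC N} (hu : u ∈ riemannRochSpace W) :
    ∃ f : CuspForm (CongruenceSubgroup.Gamma0 N) 2, Rel u f := by
  obtain ⟨h, hh, -, hinv⟩ := exists_hol_of_mem_rrSpace hW hu
  obtain ⟨L, hLord, hL⟩ := hC5
  obtain ⟨f, hf⟩ := hC2 (h : ℍ → ℂ) h.2 hinv
    (fun γ => isZeroAtImInfty_slash hW hu hh hL hLord γ)
  refine ⟨f, ?_⟩
  have e : holOfCusp f = h := Subtype.ext hf
  rw [Rel, e, hh]

/-- the bridge map -/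
noncomputable def bridgeMap :
    riemannRochSpace W →ₗ[ℂ] CuspForm (CongruenceSubgroup.Gamma0 N) 2 where
  toFun u := (exists_rel hC2 hC5 hW u.2).choose
  map_add' u u' := by
    have h1 := (exists_rel hC2 hC5 hW u.2).choose_spec
    have h2 := (exists_rel hC2 hC5 hW u'.2).choose_spec
    have h3 := (exists_rel hC2 hC5 hW (u + u').2).choose_spec
    exact h3.unique (h1.add h2)
  map_smul' c u := by
    have h1 := (exists_rel hC2 hC5 hW u.2).choose_spec
    have h3 := (exists_rel hC2 hC5 hW (c • u).2).choose_spec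
    exact h3.unique (h1.smul c)

theorem bridgeMap_rel (u : riemannRochSpace W) : Rel (u : FC N) (bridgeMap hC2 hC5 hW u) :=
  (exists_rel hC2 hC5 hW u.2).choose_spec

theorem bridgeMap_injective : Function.Injective (bridgeMap hC2 hC5 hW) := by
  rw [← LinearMap.ker_eq_bot, LinearMap.ker_eq_bot']
  intro u hu
  have h := bridgeMap_rel hC2 hC5 hW u
  rw [hu] at h
  exact Subtype.ext h.eq_zero

theorem finrank_rrSpace_le :
    Module.finrank ℂ (riemannRochSpace W)
      ≤ Module.finrank ℂ (CuspForm (CongruenceSubgroup.Gamma0 N) 2) :=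
  LinearMap.finrank_le_finrank_of_injective (bridgeMap_injective hC2 hC5 hW)

end Main

/-- **The lower bound**: `genusFormula N ≤ dim S₂(Γ₀(N))`. -/
theorem genusFormula_le_finrank (hC2 : CuspCtor N) (hC5 : JDerExp N) :
    genusFormula N ≤ (Module.finrank ℂ (CuspForm (CongruenceSubgroup.Gamma0 N) 2) : ℚ) := by
  obtain ⟨W, hW⟩ := exists_divisor_dj N
  have hff := isFF1_jFC N
  have hdj : D ℂ (FC N) (jFC N) ≠ 0 := D_ne_zero hff
  obtain ⟨g, hg, hdeg⟩ := degree_divisor_differential_FC N _ hdj W hW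
  have hRR := two_mul_finrank_rrSpace_canonical_of_isFF1 hff _ hdj W hW
  rw [hdeg] at hRR
  have h1 : Module.finrank ℂ (riemannRochSpace W) = g := by omega
  have h2 := finrank_rrSpace_le hC2 hC5 hW
  rw [h1] at h2
  rw [← hg]
  exact_mod_cast h2

end Fermat.Agent.S20
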