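import Mathlib

/-!
# S20 bridge, piece C2: a constructor of cusp forms of weight 2 on `Γ₀(N)`

A holomorphic function on `ℍ` with the weight-2 transformation law for `Γ₀(N)` all of whose
`SL₂(ℤ)`-slashes vanish at `i∞` is a cusp form.
-/

set_option autoImplicit false

open UpperHalfPlane CongruenceSubgroup Matrix.SpecialLinearGroup ModularForm OnePoint
open scoped MatrixGroups Manifold ModularForm

namespace Fermat.Agent.S20

/-- **C2.** constructor of a cusp form of weight `2` on `Γ₀(N)`. -/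
theorem exists_cuspForm_of {N : ℕ} [NeZero N] (h : ℍ → ℂ) (hh : MDiff h)
    (hinv : ∀ g : SL(2, ℤ), g ∈ CongruenceSubgroup.Gamma0 N → ∀ z : ℍ,
      h (g • z) = (UpperHalfPlane.denom g z) ^ 2 * h z)
    (hcusp : ∀ γ : SL(2, ℤ), UpperHalfPlane.IsZeroAtImInfty (h ∣[(2 : ℤ)] γ)) :
    ∃ f : CuspForm (CongruenceSubgroup.Gamma0 N) 2, ⇑f = h := by
  refine ⟨{ toFun := h
            slash_action_eq' := ?_
            holo' := hh
            zero_at_cusps' := ?_ }, rfl⟩
  · rintro A ⟨g, hg, rfl⟩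
    ext z
    change (h ∣[(2 : ℤ)] g) z = h z
    rw [SL_slash_apply, hinv g hg z]
    have hd : denom (g : GL (Fin 2) ℝ) z ≠ 0 := denom_ne_zero _ z
    rw [zpow_neg, mul_comm, ← mul_assoc]
    rw [show (denom (g : GL (Fin 2) ℝ) z ^ (2 : ℤ))⁻¹ * denom (g : GL (Fin 2) ℝ) z ^ 2 = 1 by
      rw [zpow_ofNat]
      exact inv_mul_cancel₀ (pow_ne_zero 2 hd)]
    rw [one_mul]
  · intro c hc
    rw [Subgroup.IsArithmetic.isCusp_iff_isCusp_SL2Z] at hc
    rw [OnePoint.isZeroAt_iff_forall_SL2Z hc]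
    intro γ _
    exact hcusp γ

end Fermat.Agent.S20
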