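import Mathlib
import Fermat.Agent.Lib.ModC.HolDer
import Fermat.Agent.Lib.ModC.Inf
import Fermat.Agent.Lib.ModJ.Order
import Fermat.Agent.Lib.ModJ.QExpJ

/-!
# S20 bridge, piece C5: the `q_N`-expansion of `j'`

`j' = -(2πi) E₄² E₆ / Δ` has a Laurent expansion in `q_N = exp(2πiτ/N)` of order exactly `-N`.
-/

set_option autoImplicit false

noncomputable section

open UpperHalfPlane hiding I
open Function Complex ModularForm
open scoped Manifold

namespace Fermat.Agent.S20

open Fermat.Agent.Lib.ModJ Fermat.Agent.Lib.ModC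

local notation "𝕢" => Periodic.qParam

/-- order of a power series with nonzero constant coefficient, seen as a Laurent series -/
theorem order_ofPowerSeries_of_coeff_zero_ne {S : PowerSeries ℂ} (hS : S.coeff 0 ≠ 0) :
    (HahnSeries.ofPowerSeries ℤ ℂ S).order = 0 := by
  have hc : (HahnSeries.ofPowerSeries ℤ ℂ S).coeff (0 : ℤ) ≠ 0 := by
    have := HahnSeries.ofPowerSeries_apply_coeff (Γ := ℤ) (R := ℂ) S 0
    simp only [Nat.cast_zero] at this
    rw [this]
    exact hS
  have hne : HahnSeries.ofPowerSeries ℤ ℂ S ≠ 0 := by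
    intro h
    rw [h] at hc
    simp at hc
  apply le_antisymm
  · exact HahnSeries.order_le_of_coeff_ne_zero hc
  · by_contra hlt
    rw [not_le] at hlt
    exact (fun h => hne (HahnSeries.coeff_order_eq_zero.mp h))
      (ModularCurve.ofPowerSeries_coeff_of_neg _ hlt)

/-- the order of `qExpand N L` is `N` times the order of `L` -/
theorem order_qExpand_of_ne_zero (N : ℕ) [NeZero N] {L : LaurentSeries ℂ} (hL : L ≠ 0) :
    (ModularCurve.qExpand ℂ N L).order = (N : ℤ) * L.order := by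
  have hN : (0 : ℤ) < N := by exact_mod_cast Nat.pos_of_ne_zero (NeZero.ne N)
  have hcoeff : (ModularCurve.qExpand ℂ N L).coeff ((N : ℤ) * L.order) ≠ 0 := by
    rw [ModularCurve.qExpand_coeff_mul]
    exact fun h => hL (HahnSeries.coeff_order_eq_zero.mp h)
  have hne : ModularCurve.qExpand ℂ N L ≠ 0 := by
    intro h
    rw [h] at hcoeff
    simp at hcoeff
  apply le_antisymm
  · exact HahnSeries.order_le_of_coeff_ne_zero hcoeff
  · by_contra hlt
    rw [not_le] at hlt
    have h1 : (ModularCurve.qExpand ℂ N L).coeff (ModularCurve.qExpand ℂ N L).order ≠ 0 :=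
      fun h => hne (HahnSeries.coeff_order_eq_zero.mp h)
    apply h1
    by_cases hdvd : (N : ℤ) ∣ (ModularCurve.qExpand ℂ N L).order
    · obtain ⟨k, hk⟩ := hdvd
      rw [hk, ModularCurve.qExpand_coeff_mul]
      have hk1 : k < L.order := by
        rw [hk] at hlt
        exact lt_of_mul_lt_mul_left hlt hN.le
      exact HahnSeries.coeff_eq_zero_of_lt_order hk1
    · exact ModularCurve.qExpand_coeff_of_not_dvd N L hdvd

/-- `E₆` is the sum of its `q`-expansion. -/
theorem hasQ_E6 : HasQ 1 (fun τ => E₆ τ) (qExpansion 1 E₆) :=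
  hasQ_of_periodic one_pos
    (SlashInvariantFormClass.periodic_comp_ofComplex E₆ one_mem_strictPeriods_SL)
    (ModularFormClass.holo E₆) (ModularFormClass.bdd_at_infty E₆)

theorem coeff_zero_qExpansion_E6 : (qExpansion 1 E₆).coeff 0 = 1 :=
  EisensteinSeries.E_qExpansion_coeff_zero _ ⟨3, rfl⟩

theorem coeff_zero_toC_eisenstein4 : (toC ModularCurve.eisenstein4).coeff 0 = 1 := by
  rw [toC, PowerSeries.coeff_map, ModularCurve.eisenstein4, PowerSeries.coeff_mk]
  simp

theorem coeff_zero_toC_dedekindEtaUnitInv : (toC ModularCurve.dedekindEtaUnitInv).coeff 0 ≠ 0 := by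
  intro h
  have h1 := congrArg (PowerSeries.coeff (R := ℂ) 0) toC_unit_mul_inv
  rw [PowerSeries.coeff_zero_eq_constantCoeff, map_mul, ← PowerSeries.coeff_zero_eq_constantCoeff,
    h, mul_zero] at h1
  simp at h1

/-- the level one Laurent expansion of `j'` -/
def jDerL : LaurentSeries ℂ :=
  HahnSeries.C (-(2 * (Real.pi : ℂ) * I)) *
    (HahnSeries.ofPowerSeries ℤ ℂ (toC ModularCurve.eisenstein4)) ^ 2 *
    HahnSeries.ofPowerSeries ℤ ℂ (qExpansion 1 E₆) *
    (HahnSeries.single (-1 : ℤ) (1 : ℂ) *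
      HahnSeries.ofPowerSeries ℤ ℂ (toC ModularCurve.dedekindEtaUnitInv))

theorem hasQL_jDer_one : HasQL 1 (fun z => (jDer : ℍ → ℂ) z) jDerL := by
  have h1 : HasQL 1 (fun τ => ((𝕢 1 τ)⁻¹ * ((∏' n : ℕ, (1 - 𝕢 1 τ ^ (n + 1))) ^ 24)⁻¹))
      (HahnSeries.single (-1 : ℤ) (1 : ℂ) *
        HahnSeries.ofPowerSeries ℤ ℂ (toC ModularCurve.dedekindEtaUnitInv)) :=
    hasQL_inv_q.mul hasQ_eta24_inv.hasQL
  have h2 := (((hasQL_C (h := 1) (-(2 * (Real.pi : ℂ) * I))).mul
    (hasQ_E4.hasQL.pow 2)).mul hasQ_E6.hasQL).mul h1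
  refine h2.congr (fun τ => ?_)
  rw [jDer_apply, deriv_jC, discriminant_eq]
  have hq : 𝕢 1 τ ≠ 0 := Periodic.qParam_ne_zero _
  have hp := pow_ne_zero 24 (tprod_ne_zero τ)
  field_simp

theorem order_jDerL : jDerL.order = -1 := by
  have hC : HahnSeries.C (-(2 * (Real.pi : ℂ) * I)) ≠ (0 : LaurentSeries ℂ) := by
    intro h
    have h2 : (-(2 * (Real.pi : ℂ) * I)) = 0 := by
      have := congrArg (fun L : LaurentSeries ℂ => L.coeff 0) h
      simp at this
    have : (2 * (Real.pi : ℂ) * I) ≠ 0 := Complex.two_pi_I_ne_zero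
    exact this (neg_eq_zero.mp h2)
  have h4 : (HahnSeries.ofPowerSeries ℤ ℂ (toC ModularCurve.eisenstein4)).order = 0 :=
    order_ofPowerSeries_of_coeff_zero_ne (by rw [coeff_zero_toC_eisenstein4]; exact one_ne_zero)
  have h6 : (HahnSeries.ofPowerSeries ℤ ℂ (qExpansion 1 E₆)).order = 0 :=
    order_ofPowerSeries_of_coeff_zero_ne (by rw [coeff_zero_qExpansion_E6]; exact one_ne_zero)
  have hU : (HahnSeries.ofPowerSeries ℤ ℂ (toC ModularCurve.dedekindEtaUnitInv)).order = 0 :=
    order_ofPowerSeries_of_coeff_zero_ne coeff_zero_toC_dedekindEtaUnitInv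
  have n4 : HahnSeries.ofPowerSeries ℤ ℂ (toC ModularCurve.eisenstein4) ≠ 0 := by
    intro h
    have := congrArg (fun L : LaurentSeries ℂ => L.coeff ((0 : ℕ) : ℤ)) h
    simp only [HahnSeries.ofPowerSeries_apply_coeff, coeff_zero_toC_eisenstein4] at this
    simp at this
  have n6 : HahnSeries.ofPowerSeries ℤ ℂ (qExpansion 1 E₆) ≠ 0 := by
    intro h
    have := congrArg (fun L : LaurentSeries ℂ => L.coeff ((0 : ℕ) : ℤ)) h
    simp only [HahnSeries.ofPowerSeries_apply_coeff, coeff_zero_qExpansion_E6] at this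
    simp at this
  have nU : HahnSeries.ofPowerSeries ℤ ℂ (toC ModularCurve.dedekindEtaUnitInv) ≠ 0 := by
    intro h
    have := congrArg (fun L : LaurentSeries ℂ => L.coeff ((0 : ℕ) : ℤ)) h
    simp only [HahnSeries.ofPowerSeries_apply_coeff] at this
    exact coeff_zero_toC_dedekindEtaUnitInv (by simpa using this)
  have ns : HahnSeries.single (-1 : ℤ) (1 : ℂ) ≠ 0 := single_ne_zero' _
  rw [jDerL, HahnSeries.order_mul (mul_ne_zero (mul_ne_zero hC (pow_ne_zero 2 n4)) n6)
      (mul_ne_zero ns nU),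
    HahnSeries.order_mul (mul_ne_zero hC (pow_ne_zero 2 n4)) n6,
    HahnSeries.order_mul hC (pow_ne_zero 2 n4), HahnSeries.order_mul ns nU,
    pow_two, HahnSeries.order_mul n4 n4, h4, h6, hU, HahnSeries.order_C,
    HahnSeries.order_single one_ne_zero]
  norm_num

theorem jDerL_ne_zero : jDerL ≠ 0 := by
  intro h
  have := order_jDerL
  rw [h] at this
  simp at this

/-- **C5**: `j'` has a Laurent expansion in `q_N` of order exactly `-N`. -/
theorem exists_hasQL_jDer (N : ℕ) [NeZero N] :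
    ∃ L : LaurentSeries ℂ, L.order = -(N : ℤ) ∧ HasQL N (fun z => (jDer : ℍ → ℂ) z) L := by
  refine ⟨ModularCurve.qExpand ℂ N jDerL, ?_, ?_⟩
  · rw [order_qExpand_of_ne_zero N jDerL_ne_zero, order_jDerL]
    ring
  · exact hasQL_jDer_one.comp N id (fun z => qParam_one_eq_pow N z)

end Fermat.Agent.S20
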